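import Fermat.Agent.QuarticResolvent.Depressed

/-!
# Integers with small conjugates and the discriminant of a generated field

Two integers whose numbers `Re φ + Im φ` have the same integral parts after scaling by three are
equal, so at most `(15 R) ^ n` integers have all conjugates at most `R`; the discriminant of a field
generated by one of them is at most `(n! R ^ (0 + 1 + ⋯ + (n - 1))) ^ 2`.
-/

set_option autoImplicit false
set_option linter.style.haveILetI false

noncomputable section

open NumberField Module Finset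
open scoped Classical

namespace FA.SymmetricFieldsLower

variable {K : Type} [Field K] [NumberField K]

/-- **Integers with small conjugates.** -/
theorem card_small_le {n : ℕ} (hn : finrank ℚ K = n) {R : ℝ} (hR : 1 ≤ R) (S : Finset (𝓞 K))
    (hS : ∀ x ∈ S, ∀ φ : K →+* ℂ, ‖φ (x : K)‖ ≤ R) : (S.card : ℝ) ≤ (15 * R) ^ n := by
  set g : 𝓞 K → (K →+* ℂ) → ℤ := fun x φ => ⌊3 * ((φ (x : K)).re + (φ (x : K)).im)⌋
  set B : ℤ := ⌊7 * R⌋
  have hB : 0 ≤ B := Int.floor_nonneg.2 (by linarith)
  have hmaps : ∀ x ∈ S, g x ∈ Fintype.piFinset fun _ : K →+* ℂ => Icc (-B) B := fun x hx => by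
    refine Fintype.mem_piFinset.2 fun φ => mem_Icc.2 ?_
    have h1 := abs_le.1 ((Complex.abs_re_le_norm _).trans (hS x hx φ))
    have h2 := abs_le.1 ((Complex.abs_im_le_norm _).trans (hS x hx φ))
    constructor
    · have hBR := Int.lt_floor_add_one (7 * R)
      simp only [g, B]
      rw [Int.le_floor]
      push_cast
      linarith
    · simp only [g, B]
      exact Int.floor_le_floor (by linarith)
  have hinj : Set.InjOn g S := by
    intro x _ y _ h
    by_contra hne
    have hz : (x - y : 𝓞 K) ≠ 0 := sub_ne_zero.2 hne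
    have hu : ∀ φ : K →+* ℂ, |(φ ((x - y : 𝓞 K) : K)).re + (φ ((x - y : 𝓞 K) : K)).im| < 1 / 3 :=
      fun φ => by
        have := Int.abs_sub_lt_one_of_floor_eq_floor (congrFun h φ)
        rw [RingOfIntegers.coe_eq_algebraMap, map_sub, map_sub, Complex.sub_re, Complex.sub_im,
          show (φ (algebraMap (𝓞 K) K x)).re - (φ (algebraMap (𝓞 K) K y)).re +
            ((φ (algebraMap (𝓞 K) K x)).im - (φ (algebraMap (𝓞 K) K y)).im) =
            (3 * ((φ (x : K)).re + (φ (x : K)).im) - 3 * ((φ (y : K)).re + (φ (y : K)).im)) / 3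
            from by ring,
          abs_div, abs_of_pos (by norm_num : (0 : ℝ) < 3)]
        linarith
    have hlt : ∀ φ : K →+* ℂ, ‖φ ((x - y : 𝓞 K) : K)‖ < 1 := fun φ => by
      have h1 := abs_lt.1 (hu φ)
      have h2 := abs_lt.1 (hu (ComplexEmbedding.conjugate φ))
      rw [ComplexEmbedding.conjugate_coe_eq, Complex.conj_re, Complex.conj_im] at h2
      refine (Complex.norm_le_abs_re_add_abs_im _).trans_lt ?_
      set u := (φ ((x - y : 𝓞 K) : K)).re
      set v := (φ ((x - y : 𝓞 K) : K)).im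
      have : |u| < 1 / 3 := abs_lt.2 ⟨by linarith, by linarith⟩
      have : |v| < 1 / 3 := abs_lt.2 ⟨by linarith, by linarith⟩
      linarith
    have hnorm := Algebra.norm_eq_prod_embeddings ℚ ℂ ((x - y : 𝓞 K) : K)
    rw [← Algebra.coe_norm_int, map_intCast] at hnorm
    have h1 : (1 : ℝ) ≤ ‖((Algebra.norm ℤ (x - y) : ℤ) : ℂ)‖ := by
      rw [Complex.norm_intCast]
      exact_mod_cast Int.one_le_abs (Algebra.norm_ne_zero_iff.2 hz)
    rw [hnorm, norm_prod] at h1
    refine absurd h1 (not_le.2 ?_)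
    let σ₀ : K →ₐ[ℚ] ℂ := IsAlgClosed.lift
    rw [← Finset.mul_prod_erase univ _ (mem_univ σ₀)]
    exact mul_lt_one_of_nonneg_of_lt_one_left (norm_nonneg _) (hlt σ₀.toRingHom)
      (Finset.prod_le_one (fun _ _ => norm_nonneg _) fun σ _ => (hlt σ.toRingHom).le)
  have hcard := card_le_card_of_injOn g hmaps hinj
  rw [Fintype.card_piFinset, prod_const, card_univ, Embeddings.card, hn, Int.card_Icc] at hcard
  refine (Nat.cast_le.2 hcard).trans ?_
  rw [Nat.cast_pow]
  refine pow_le_pow_left₀ (Nat.cast_nonneg _) ?_ _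
  rw [show (((B + 1 - -B).toNat : ℕ) : ℝ) = ((B + 1 - -B : ℤ) : ℝ) by
    exact_mod_cast congrArg (Int.cast : ℤ → ℝ) (Int.toNat_of_nonneg (by omega))]
  push_cast
  linarith [Int.floor_le (7 * R)]

/-- **The discriminant of a generated field.** -/
theorem discr_le_of_generator {n : ℕ} (hn : finrank ℚ K = n) (θ : 𝓞 K)
    (hgen : (minpoly ℚ (θ : K)).natDegree = n) {R : ℝ} (hR : ∀ φ : K →+* ℂ, ‖φ (θ : K)‖ ≤ R) :
    |(discr K : ℝ)| ≤ ((n.factorial : ℝ) * R ^ ∑ i : Fin n, (i : ℕ)) ^ 2 := by
  obtain ⟨e⟩ := FA.QuarticResolvent.exists_embeddings K hn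
  obtain ⟨m, hm, -⟩ := FA.QuarticResolvent.exists_index K hn θ e
  have hbasis : IntermediateField.adjoin ℚ {(θ : K)} = ⊤ :=
    IntermediateField.eq_of_le_of_finrank_eq le_top (by
      rw [IntermediateField.adjoin.finrank (IsIntegral.of_finite ℚ _), hgen,
        IntermediateField.finrank_top', hn])
  have hinj : Function.Injective fun i => e i (θ : K) := fun i j h =>
    e.injective (AlgHom.ext_of_adjoin_eq_top (s := {(θ : K)}) (by
      rw [← IntermediateField.adjoin_simple_toSubalgebra_of_isAlgebraic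
        (Algebra.IsAlgebraic.isAlgebraic _), hbasis, IntermediateField.top_toSubalgebra])
      (by simpa using h))
  have hm0 : m ≠ 0 := by
    rintro rfl
    rw [Int.cast_zero, zero_pow two_ne_zero, zero_mul] at hm
    exact Matrix.det_vandermonde_ne_zero_iff.2 hinj ((pow_eq_zero_iff two_ne_zero).1 hm)
  have hdet : ‖(Matrix.vandermonde fun i => e i (θ : K)).det‖ ≤
      (n.factorial : ℝ) * R ^ ∑ i : Fin n, (i : ℕ) := by
    rw [Matrix.det_apply']
    refine (norm_sum_le _ _).trans ((Finset.sum_le_card_nsmul _ _ (R ^ ∑ i : Fin n, (i : ℕ))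
      fun σ _ => ?_).trans (by simp [Fintype.card_perm]))
    rw [norm_mul, norm_prod, ← Finset.prod_pow_eq_pow_sum]
    have hs : ‖((Equiv.Perm.sign σ : ℤ) : ℂ)‖ = 1 := by
      rcases Int.units_eq_one_or (Equiv.Perm.sign σ) with h | h <;> simp [h]
    rw [hs, one_mul]
    refine Finset.prod_le_prod (fun _ _ => norm_nonneg _) fun i _ => ?_
    rw [Matrix.vandermonde_apply, norm_pow]
    exact pow_le_pow_left₀ (norm_nonneg _) (hR (e (σ i)).toRingHom) _
  have h := congrArg norm hm
  rw [norm_pow, norm_mul, norm_pow, Complex.norm_intCast, Complex.norm_intCast] at h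
  calc |(discr K : ℝ)| ≤ |(m : ℝ)| ^ 2 * |(discr K : ℝ)| :=
        le_mul_of_one_le_left (abs_nonneg _) (one_le_pow₀ (by exact_mod_cast Int.one_le_abs hm0))
    _ = ‖(Matrix.vandermonde fun i => e i (θ : K)).det‖ ^ 2 := h.symm
    _ ≤ _ := pow_le_pow_left₀ (norm_nonneg _) hdet 2

end FA.SymmetricFieldsLower
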