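import Fermat.Agent.SymmetricFieldsLower.Integers
import Fermat.Agent.VanDerWaerden.Main

/-!
# Fields of degree `n` with symmetric group, from below

The polynomials `X ^ n + ∑ aᵢ X ^ i` with `|aᵢ| ≤ Y ^ (n - i)` in fixed classes modulo three primes
have group `Sₙ`; their roots are at most `2 Y`, so one field carries `O (Y ^ n)` of them and has
discriminant `O (Y ^ (n (n - 1)))`: so at least `c √X` fields have `|d| ≤ X`.
-/

set_option autoImplicit false
set_option linter.style.haveILetI false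

noncomputable section

open NumberField Module Finset Polynomial
open Fermat.Agent.VanDerWaerden (monicOf HasSymmetricGroup hasSymmetricGroup_of_types irrSet
  rootSetType swapType monicOf_monic natDegree_monicOf monicOf_injective map_monicOf
  pow_le_card_irrSet pow_le_card_rootSetType pow_le_card_swapType)
open scoped Classical

namespace FA.SymmetricFieldsLower

/-- The roots in a weighted box. -/
theorem root_le {n : ℕ} {a : Fin n → ℤ} {Y : ℕ} (ha : ∀ i, |a i| ≤ (Y : ℤ) ^ (n - (i : ℕ)))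
    {z : ℂ} (hz : aeval z (monicOf a) = 0) : ‖z‖ ≤ 2 * Y := by
  by_contra! hlt
  have hY : (0 : ℝ) ≤ Y := Nat.cast_nonneg _
  have hz0 : 0 < ‖z‖ := lt_of_le_of_lt (by positivity) hlt
  simp [monicOf] at hz
  have h0 : ‖z‖ ^ n ≤ ∑ i : Fin n, ‖(a i : ℂ) * z ^ (i : ℕ)‖ := by
    rw [← norm_pow, eq_neg_of_add_eq_zero_left hz]
    exact (norm_neg _).trans_le (norm_sum_le _ _)
  have h1 : ∀ i : Fin n,
      ‖(a i : ℂ) * z ^ (i : ℕ)‖ ≤ (1 / 2 : ℝ) ^ (n - (i : ℕ)) * ‖z‖ ^ n := fun i => by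
    have hai : |(a i : ℝ)| ≤ (Y : ℝ) ^ (n - (i : ℕ)) := by exact_mod_cast ha i
    have hsplit : ‖z‖ ^ n = ‖z‖ ^ (n - (i : ℕ)) * ‖z‖ ^ (i : ℕ) := by
      rw [← pow_add, Nat.sub_add_cancel i.isLt.le]
    rw [norm_mul, norm_pow, Complex.norm_intCast, hsplit, ← mul_assoc, ← mul_pow]
    exact mul_le_mul_of_nonneg_right (hai.trans (pow_le_pow_left₀ hY (by linarith) _))
      (by positivity)
  have h2 : ∑ i : Fin n, (1 / 2 : ℝ) ^ (n - (i : ℕ)) < 1 := by
    rw [Fin.sum_univ_eq_sum_range (fun i => (1 / 2 : ℝ) ^ (n - i)) n,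
      sum_congr rfl (g := fun i => (1 / 2 : ℝ) * (1 / 2) ^ (n - 1 - i)) fun i hi => by
        rw [← pow_succ']; congr 1; have := mem_range.1 hi; omega,
      ← mul_sum, sum_range_reflect (fun i => (1 / 2 : ℝ) ^ i), geom_sum_eq (by norm_num)]
    rw [show (1 / 2 : ℝ) * (((1 / 2) ^ n - 1) / (1 / 2 - 1)) = 1 - (1 / 2) ^ n by ring]
    exact sub_lt_self 1 (pow_pos (by norm_num) n)
  have h3 := h0.trans (sum_le_sum fun i _ => h1 i)
  rw [← sum_mul] at h3
  nlinarith [pow_pos hz0 n]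

/-- A natural number in three given classes. -/
theorem exists_residue {p q s : ℕ} [NeZero p] [NeZero q] [NeZero s] (hpq : p.Coprime q)
    (hs : (p * q).Coprime s) (u : ZMod p) (v : ZMod q) (w : ZMod s) :
    ∃ r : ℕ, r < p * q * s ∧ (r : ZMod p) = u ∧ (r : ZMod q) = v ∧ (r : ZMod s) = w := by
  set e := (ZMod.chineseRemainder hs).trans
    ((ZMod.chineseRemainder hpq).prodCongr (RingEquiv.refl (ZMod s)))
  set x := e.symm ((u, v), w)
  have h : ((x.val : ℕ) : (ZMod p × ZMod q) × ZMod s) = ((u, v), w) := by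
    rw [← map_natCast e, ZMod.natCast_rightInverse x]
    exact e.apply_symm_apply _
  exact ⟨x.val, x.val_lt, congrArg (fun t => t.1.1) h, congrArg (fun t => t.1.2) h,
    congrArg Prod.snd h⟩

/-- **Many polynomials with symmetric group in a weighted box.** -/
theorem exists_symmetric_box {n : ℕ} (hn : 2 ≤ n) : ∃ M : ℕ, 0 < M ∧ ∀ Y : ℕ, M ≤ Y →
    ∃ S : Finset (Fin n → ℤ),
      (Y : ℝ) ^ (∑ i : Fin n, (n - (i : ℕ))) / (2 * M) ^ n ≤ S.card ∧
      ∀ a ∈ S, (∀ i, |a i| ≤ (Y : ℤ) ^ (n - (i : ℕ))) ∧ HasSymmetricGroup a := by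
  set p₀ := max 3 (2 * n)
  obtain ⟨p₁, h₁, hp₁⟩ := Nat.exists_infinite_primes p₀
  obtain ⟨p₂, h₂, hp₂⟩ := Nat.exists_infinite_primes (p₁ + 1)
  obtain ⟨p₃, h₃, hp₃⟩ := Nat.exists_infinite_primes (p₂ + 1)
  have := Fact.mk hp₁; have := Fact.mk hp₂; have := Fact.mk hp₃
  have h31 : 3 ≤ p₁ := le_trans (le_max_left _ _) h₁
  have h2n : 2 * n ≤ p₁ := le_trans (le_max_right _ _) h₁
  obtain ⟨u, hu⟩ : (irrSet p₁ n).Nonempty := by
    have h := pow_le_card_irrSet (p := p₁) h31 (d := n) (by omega)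
    have hpos : 0 < p₁ ^ n := pow_pos hp₁.pos n
    refine card_pos.1 (Nat.pos_of_ne_zero fun h0 => ?_)
    rw [h0, mul_zero] at h; omega
  obtain ⟨v, hv⟩ : ∃ v, 3 ≤ n → v ∈ rootSetType p₂ n := by
    by_cases h3 : 3 ≤ n
    · have h := pow_le_card_rootSetType (p := p₂) (by omega) h3
      have hpos : 0 < p₂ ^ n := pow_pos hp₂.pos n
      obtain ⟨v, hv⟩ : (rootSetType p₂ n).Nonempty := by
        refine card_pos.1 (Nat.pos_of_ne_zero fun h0 => ?_)
        rw [h0, mul_zero] at h; omega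
      exact ⟨v, fun _ => hv⟩
    · exact ⟨0, fun h => absurd h h3⟩
  obtain ⟨w, hw⟩ : (swapType p₃ n).Nonempty := by
    have h := pow_le_card_swapType (p := p₃) (by omega) hn (by omega)
    have hpos : 0 < p₃ ^ n := pow_pos hp₃.pos n
    refine card_pos.1 (Nat.pos_of_ne_zero fun h0 => ?_)
    rw [h0, mul_zero] at h; omega
  have c12 : p₁.Coprime p₂ := (Nat.coprime_primes hp₁ hp₂).2 (by omega)
  have c3 : (p₁ * p₂).Coprime p₃ := Nat.Coprime.mul_left
    ((Nat.coprime_primes hp₁ hp₃).2 (by omega)) ((Nat.coprime_primes hp₂ hp₃).2 (by omega))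
  choose r hr1 hru hrv hrw using fun i => exists_residue c12 c3 (u i) (v i) (w i)
  set M := p₁ * p₂ * p₃
  have hM : 0 < M := Nat.mul_pos (Nat.mul_pos hp₁.pos hp₂.pos) hp₃.pos
  refine ⟨M, hM, fun Y hY => ?_⟩
  let f : (Fin n → ℕ) → Fin n → ℤ := fun k i => (r i : ℤ) + M * k i
  set S := (Fintype.piFinset fun i : Fin n => range (Y ^ (n - (i : ℕ)) / M)).image f
  have hinj : Function.Injective f := fun k k' h => funext fun i => by
    have hMZ : (M : ℤ) ≠ 0 := by exact_mod_cast hM.ne'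
    exact_mod_cast mul_left_cancel₀ hMZ (add_left_cancel (congrFun h i))
  refine ⟨S, ?_, fun a ha => ?_⟩
  · rw [card_image_of_injective _ hinj, Fintype.card_piFinset, ← Finset.prod_pow_eq_pow_sum,
      Nat.cast_prod, ← Fin.prod_const, ← Finset.prod_div_distrib]
    refine Finset.prod_le_prod (fun i _ => by positivity) fun i _ => ?_
    rw [card_range, div_le_iff₀ (by positivity)]
    set q := Y ^ (n - (i : ℕ))
    have hq : M ≤ q := hY.trans (Nat.le_self_pow (by have := i.isLt; omega) Y)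
    have h1 : q ≤ 2 * (q / M * M) := by
      have := Nat.div_add_mod' q M
      have := Nat.mod_lt q hM
      have : 1 ≤ q / M := (Nat.one_le_div_iff hM).2 hq
      nlinarith
    calc ((Y : ℝ) ^ (n - (i : ℕ))) = (q : ℝ) := by simp [q]
      _ ≤ ((2 * (q / M * M) : ℕ) : ℝ) := Nat.cast_le.2 h1
      _ = _ := by push_cast; ring
  · obtain ⟨k, hk, rfl⟩ := mem_image.1 ha
    have hk' := fun i => mem_range.1 (Fintype.mem_piFinset.1 hk i)
    refine ⟨fun i => ?_, ?_⟩
    · have h1 : r i + M * k i ≤ Y ^ (n - (i : ℕ)) := by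
        have h2 : M * (k i + 1) ≤ Y ^ (n - (i : ℕ)) :=
          (Nat.mul_le_mul_left M (hk' i)).trans (Nat.mul_div_le _ _)
        have := hr1 i
        nlinarith
      rw [abs_of_nonneg (by positivity)]
      simp only [f]
      exact_mod_cast h1
    · refine hasSymmetricGroup_of_types hn (p₁ := p₁) (p₂ := p₂) (p₃ := p₃) ?_ (fun h3 => ?_) ?_
      · convert hu using 1
        funext i
        simp [f, M, hru]
      · convert hv h3 using 1
        funext i
        simp [f, M, hrv]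
      · convert hw using 1
        funext i
        simp [f, M, hrw]

/-- The field of an irreducible polynomial. -/
theorem exists_field {n : ℕ} {a : Fin n → ℤ}
    (h : Irreducible ((monicOf a).map (Int.castRingHom ℚ))) :
    ∃ (L : Type) (_ : Field L) (_ : NumberField L), finrank ℚ L = n ∧
      ∃ θ : 𝓞 L, minpoly ℚ (θ : L) = (monicOf a).map (Int.castRingHom ℚ) ∧
        aeval (θ : L) (monicOf a) = 0 := by
  set f := (monicOf a).map (Int.castRingHom ℚ) with hf
  haveI : Fact (Irreducible f) := ⟨h⟩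
  have hm : f.Monic := (monicOf_monic a).map _
  haveI : FiniteDimensional ℚ (AdjoinRoot f) := (AdjoinRoot.powerBasis hm.ne_zero).finite
  haveI : CharZero (AdjoinRoot f) :=
    charZero_of_injective_algebraMap (algebraMap ℚ (AdjoinRoot f)).injective
  haveI hNF : NumberField (AdjoinRoot f) := {}
  have h0 : f.eval₂ (algebraMap ℚ (AdjoinRoot f)) (AdjoinRoot.root f) = 0 := by
    rw [Subsingleton.elim (algebraMap ℚ (AdjoinRoot f)) (AdjoinRoot.of f), AdjoinRoot.eval₂_root]
  have hroot : aeval (AdjoinRoot.root f) (monicOf a) = 0 := by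
    rw [aeval_def, Subsingleton.elim (algebraMap ℤ (AdjoinRoot f))
      ((algebraMap ℚ (AdjoinRoot f)).comp (Int.castRingHom ℚ)), ← eval₂_map]
    exact h0
  refine ⟨AdjoinRoot f, inferInstance, hNF, ?_, ⟨AdjoinRoot.root f, ⟨monicOf a, monicOf_monic a,
    hroot⟩⟩, (minpoly.eq_of_irreducible_of_monic h (by rw [aeval_def]; exact h0) hm).symm, hroot⟩
  rw [(AdjoinRoot.powerBasis hm.ne_zero).finrank, AdjoinRoot.powerBasis_dim, hf,
    (monicOf_monic a).natDegree_map, natDegree_monicOf]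

/-- **Fields with symmetric group, from below.** -/
theorem sn_fields_lower {n : ℕ} (hn : 2 ≤ n) : ∃ c X₀ : ℝ, 0 < c ∧ ∀ X : ℝ, X₀ ≤ X →
    ∃ (N : ℕ) (L : Fin N → Type) (_ : ∀ i, Field (L i)) (_ : ∀ i, NumberField (L i)),
      c * Real.sqrt X ≤ N ∧ (∀ i, finrank ℚ (L i) = n) ∧ (∀ i, |(discr (L i) : ℝ)| ≤ X) ∧
      (∀ i, ∃ θ : L i, IntermediateField.adjoin ℚ {θ} = ⊤ ∧
        Nonempty ((minpoly ℚ θ).Gal ≃* Equiv.Perm (Fin n))) ∧
      ∀ i j, Nonempty (L i ≃+* L j) → i = j := by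
  obtain ⟨M, hM, hbox⟩ := exists_symmetric_box hn
  set S₀ := ∑ i : Fin n, (i : ℕ)
  set S₁ := ∑ i : Fin n, (n - (i : ℕ))
  have hS : S₁ = n + S₀ := by
    simp only [S₁, S₀, Fin.sum_univ_eq_sum_range (fun i => n - i) n,
      Fin.sum_univ_eq_sum_range (fun i => i) n]
    rw [← sum_range_reflect (fun i => n - i) n, sum_congr rfl
      (g := fun i => 1 + i) fun i hi => by have := mem_range.1 hi; omega, sum_add_distrib,
      sum_const, card_range, smul_eq_mul, mul_one]
  have hS0 : 0 < S₀ := lt_of_lt_of_le Nat.one_pos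
    (Finset.single_le_sum (f := fun i : Fin n => (i : ℕ)) (fun i _ => Nat.zero_le _)
      (mem_univ ⟨1, hn⟩))
  set B : ℝ := (n.factorial : ℝ) * 2 ^ S₀
  have hB : 0 < B := by positivity
  refine ⟨((2 * M : ℝ) ^ n * 30 ^ n * B * 2 ^ S₀)⁻¹, (B * (M : ℝ) ^ S₀) ^ 2, by positivity,
    fun X hX => ?_⟩
  have hs : B * (M : ℝ) ^ S₀ ≤ Real.sqrt X := Real.le_sqrt_of_sq_le hX
  have hex : ∃ Y : ℕ, Real.sqrt X < B * (Y : ℝ) ^ S₀ := by
    obtain ⟨Y, hY⟩ := exists_nat_gt (Real.sqrt X / B)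
    refine ⟨Y + 1, ?_⟩
    rw [div_lt_iff₀ hB] at hY
    have : (Y : ℝ) ≤ ((Y + 1 : ℕ) : ℝ) ^ S₀ := by
      refine le_trans ?_ (le_self_pow₀ (by exact_mod_cast Nat.le_add_left 1 Y) hS0.ne')
      push_cast; linarith
    nlinarith
  set Y₁ := Nat.find hex with hY₁
  have hMY : M < Y₁ := by
    by_contra hle
    have h := Nat.find_spec hex
    have : ((Y₁ : ℝ)) ^ S₀ ≤ (M : ℝ) ^ S₀ :=
      pow_le_pow_left₀ (Nat.cast_nonneg _) (Nat.cast_le.2 (not_lt.1 hle)) _
    nlinarith [mul_le_mul_of_nonneg_left this hB.le]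
  set Y := Y₁ - 1
  have hYX : B * (Y : ℝ) ^ S₀ ≤ Real.sqrt X := not_lt.1 (Nat.find_min hex (m := Y) (by omega))
  have hXY : Real.sqrt X < B * (2 : ℝ) ^ S₀ * (Y : ℝ) ^ S₀ := by
    refine (Nat.find_spec hex).trans_le ?_
    rw [mul_assoc B, ← mul_pow]
    refine mul_le_mul_of_nonneg_left (pow_le_pow_left₀ (Nat.cast_nonneg _) ?_ _) hB.le
    exact le_trans (Nat.cast_le.2 (show Y₁ ≤ 2 * Y by omega)) (le_of_eq (by push_cast; rfl))
  have hY1 : (1 : ℝ) ≤ 2 * Y := by exact_mod_cast (show 1 ≤ 2 * Y by omega)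
  obtain ⟨S, hcardS, hSa⟩ := hbox Y (by omega)
  choose L hLF hLN hLn θ hmin hroot using fun a : S => exists_field (hSa a.1 a.2).2.1
  have hθ : ∀ (a : S) (φ : L a →+* ℂ), ‖φ (θ a : L a)‖ ≤ 2 * Y := fun a φ =>
    root_le (hSa a.1 a.2).1 (by
      have := congrArg φ.toIntAlgHom (hroot a)
      rwa [← aeval_algHom_apply, map_zero] at this)
  let st : Setoid S := ⟨fun a b => Nonempty (L a ≃+* L b), fun a => ⟨RingEquiv.refl _⟩,
    fun ⟨f⟩ => ⟨f.symm⟩, fun ⟨f⟩ ⟨g⟩ => ⟨f.trans g⟩⟩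
  have hfib : ∀ q ∈ (univ : Finset (Quotient st)),
      (univ.filter fun a : S => Quotient.mk st a = q).card ≤ ⌊(15 * (2 * Y : ℝ)) ^ n⌋₊ := by
    intro q _
    obtain ⟨a₀, rfl⟩ := Quotient.exists_rep q
    set P := univ.filter fun a : S => Quotient.mk st a = Quotient.mk st a₀
    let σ := fun a : P => (show Nonempty (L a.1 ≃+* L a₀) from
      Quotient.exact (mem_filter.1 a.2).2).some
    let g : P → 𝓞 (L a₀) := fun a =>
      RingOfIntegers.mapRingEquiv (σ a) (θ a.1)
    have hginj : Function.Injective g := fun a b h => by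
      have e : σ a (θ a.1 : L a.1) = σ b (θ b.1 : L b.1) :=
        congrArg (fun z : 𝓞 (L a₀) => (z : L a₀)) h
      have key : ∀ c : P, minpoly ℚ (σ c (θ c.1 : L c.1)) =
          (monicOf c.1.1).map (Int.castRingHom ℚ) := fun c => by
        rw [← hmin c.1]
        exact minpoly.algEquiv_eq (AlgEquiv.ofRingEquiv (f := σ c) fun x => by simp) _
      have := (key a).symm.trans ((congrArg (minpoly ℚ) e).trans (key b))
      exact Subtype.ext (Subtype.ext (monicOf_injective
        (Polynomial.map_injective _ Int.cast_injective this)))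
    refine Nat.le_floor ?_
    refine le_trans (le_of_eq ?_) (card_small_le (hLn a₀) (R := 2 * Y) hY1 (univ.image g)
      fun x hx φ => ?_)
    · rw [card_image_of_injective _ hginj, card_univ, Fintype.card_coe]
    · obtain ⟨a, -, rfl⟩ := mem_image.1 hx
      exact hθ a.1 (φ.comp (σ a).toRingHom)
  have hcard := card_le_mul_card_image_of_maps_to (s := (univ : Finset S)) (t := univ)
    (f := fun a => Quotient.mk st a) (fun a _ => mem_univ _) _ hfib
  rw [card_univ, card_univ, Fintype.card_coe] at hcard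
  set N := Fintype.card (Quotient st)
  set ε := (Fintype.equivFin (Quotient st)).symm
  refine ⟨N, fun i => L (ε i).out, fun i => hLF _, fun i => hLN _, ?_, fun i => hLn _, fun i => ?_,
    fun i => ?_, fun i j hij => ε.injective ?_⟩
  · have h1 : (S.card : ℝ) ≤ (15 * (2 * Y : ℝ)) ^ n * N := by
      refine (show (S.card : ℝ) ≤ ((⌊(15 * (2 * Y : ℝ)) ^ n⌋₊ * N : ℕ) : ℝ) by
        exact_mod_cast hcard).trans ?_
      push_cast
      exact mul_le_mul_of_nonneg_right (Nat.floor_le (by positivity)) (Nat.cast_nonneg _)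
    have h2 := hcardS.trans h1
    rw [show S₁ = n + S₀ from hS, div_le_iff₀ (by positivity), pow_add,
      show (15 * (2 * Y : ℝ)) ^ n = 30 ^ n * (Y : ℝ) ^ n by rw [← mul_pow]; ring_nf] at h2
    have hYn : (0 : ℝ) < (Y : ℝ) ^ n := pow_pos (by linarith) n
    have h3 : (Y : ℝ) ^ S₀ ≤ 30 ^ n * (2 * M : ℝ) ^ n * N :=
      le_of_mul_le_mul_left (by linarith) hYn
    rw [inv_mul_le_iff₀ (by positivity)]
    refine hXY.le.trans ((mul_le_mul_of_nonneg_left h3 (by positivity)).trans (le_of_eq ?_))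
    ring
  · set a := (ε i).out
    have hdeg : (minpoly ℚ (θ a : L a)).natDegree = n := by
      rw [hmin, (monicOf_monic _).natDegree_map, natDegree_monicOf]
    refine (discr_le_of_generator (hLn a) (θ a) hdeg (hθ a)).trans ?_
    refine (pow_le_pow_left₀ (by positivity) (le_trans (le_of_eq ?_) hYX) 2).trans_eq
      (Real.sq_sqrt (le_trans (by positivity) hX))
    rw [mul_pow]; simp only [B]; ring
  · set a := (ε i).out
    refine ⟨(θ a : L a), IntermediateField.eq_of_le_of_finrank_eq le_top (by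
      rw [IntermediateField.adjoin.finrank (IsIntegral.of_finite ℚ _), hmin,
        (monicOf_monic _).natDegree_map, natDegree_monicOf, IntermediateField.finrank_top', hLn]),
      ?_⟩
    rw [hmin]
    exact (hSa a.1 a.2).2.2
  · rw [← Quotient.out_eq (ε i), ← Quotient.out_eq (ε j)]
    exact Quotient.sound hij

end FA.SymmetricFieldsLower
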